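/-
Programme T1B (S44), brick F8 HECKE-N, slice S2-D 'DIV-NORM' (helper27).

Divisor-level statements feeding the `q`-dlog map `δ` (design = report 917), in the Prelude vocabulary
(`Divisor.correspondence`, `Place.ord`, `Pic0.correspondence`).

Generic part (`φ ψ : F →ₐ[K] F'` integral, `ψ` finite with the norm formula):
* `IsDivOf D f`                     : `D = div f`, i.e. `∀ v, D v = v.ord f`;
* `correspondence_isDivOf`          : `ψ_* φ^* (div f) = div (N_ψ (φ f))`;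
* `correspondence_nsmul_isDivOf`    : `n • D = div f ⟹ n • (ψ_* φ^* D) = div (N_ψ (φ f))`;
* `pic0_correspondence_mk_nsmul`    : the same on a class `Pic0.mk D`.

Modular part, over `ℚ̄`, for EVERY prime `ℓ` (dividing the level or not):
* (D1) `heckeDivBar_isDivOf`          : `α_* β^* (div f) = div (N_α (β f))`;
       `heckeDivBarTranspose_isDivOf` : `β_* α^* (div f) = div (N_β (α f))`;
* (D2) `heckeDivBar_nsmul_isDivOf`, `heckeDivBarTranspose_nsmul_isDivOf`: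
       `n • D = div f ⟹ n • (T D) = div (N f)`,  i.e. `f_{T P} = N (f_P)`;
* `heckePic0Bar_mk_nsmul`, `heckePic0BarTranspose_mk_nsmul` : the class-level forms.
-/
import Mathlib
import Fermat.Agent.ES.P36.HeckeDeg19
import Fermat.Agent.ES.HECKE.PointFormula28
import Fermat.Agent.ES.HECKE.InputsFinal15

set_option autoImplicit false
set_option linter.unusedSectionVars false
set_option linter.style.haveILetI false

noncomputable section

open ModularCurve AlgebraicCurve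

namespace Fermat.Agent.T1B.DivNorm27

open Fermat.Agent.ES.HECKE.PointFormula28 Fermat.Agent.ES.P36.HeckeDeg19 Fermat.Agent.ES.HECKE
open Fermat.Agent.ES.HECKE.InputsMain19 Fermat.Agent.RED.TOP

/-! ### generic part -/

section Generic

variable {K F F' : Type*} [Field K] [Field F] [Field F'] [Algebra K F] [Algebra K F']

/-- `D = div f`. -/
def IsDivOf (D : Divisor K F) (f : F) : Prop := ∀ v : Place K F, D v = v.ord f

theorem IsDivOf.isPrincipal {D : Divisor K F} {f : F} (hf : f ≠ 0) (h : IsDivOf D f) :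
    D.IsPrincipal := ⟨f, hf, h⟩

theorem isPrincipal_iff_exists_isDivOf {D : Divisor K F} :
    D.IsPrincipal ↔ ∃ f : F, f ≠ 0 ∧ IsDivOf D f := Iff.rfl

/-- a divisor is determined by its function. -/
theorem IsDivOf.ext {D E : Divisor K F} {f : F} (hD : IsDivOf D f) (hE : IsDivOf E f) : D = E :=
  Finsupp.ext fun v => (hD v).trans (hE v).symm

theorem IsDivOf.mul {D E : Divisor K F} {f g : F} (hf : f ≠ 0) (hg : g ≠ 0) (hD : IsDivOf D f)
    (hE : IsDivOf E g) : IsDivOf (D + E) (f * g) := fun v => by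
  rw [Finsupp.add_apply, hD v, hE v, v.ord_mul hf hg]

theorem IsDivOf.inv {D : Divisor K F} {f : F} (hD : IsDivOf D f) : IsDivOf (-D) f⁻¹ := fun v => by
  rw [Finsupp.neg_apply, hD v, v.ord_inv]

theorem isDivOf_zero_one : IsDivOf (0 : Divisor K F) (1 : F) := fun v => by simp

theorem IsDivOf.pow {D : Divisor K F} {f : F} (hD : IsDivOf D f) (n : ℕ) :
    IsDivOf (n • D) (f ^ n) := fun v => by
  have h := v.ord_zpow f (n : ℤ)
  rw [zpow_natCast] at h
  rw [Finsupp.smul_apply, hD v, h, nsmul_eq_mul]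

variable [HasPrincipalDivisors K F']
  (φ ψ : F →ₐ[K] F') (hφ : φ.toRingHom.IsIntegral) (hψ : ψ.toRingHom.IsIntegral)

/-- **`ψ_* φ^* (div f) = div (N_ψ (φ f))`.** -/
theorem correspondence_isDivOf (hfin : FiniteAlong K ψ) (hN : NormFormulaAlong K ψ hfin)
    {f : F} (hf : f ≠ 0) {D : Divisor K F} (hD : IsDivOf D f) :
    IsDivOf (Divisor.correspondence φ ψ hφ hψ D) (normAlong ψ (φ f)) :=
  fun v => correspondence_eq_ord_norm φ ψ hφ hψ hfin hN hf hD v

omit [HasPrincipalDivisors K F'] in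
/-- the norm of a nonzero function is nonzero. -/
theorem normAlong_ne_zero (hfin : FiniteAlong K ψ) {y : F'} (hy : y ≠ 0) : normAlong ψ y ≠ 0 := by
  letI := algebraAlong ψ
  haveI : Module.Finite F F' := hfin
  exact Algebra.norm_ne_zero_iff.mpr hy

omit [HasPrincipalDivisors K F'] in
theorem normAlong_map_ne_zero (hfin : FiniteAlong K ψ) {f : F} (hf : f ≠ 0) :
    normAlong ψ (φ f) ≠ 0 :=
  normAlong_ne_zero ψ hfin (by rwa [Ne, map_eq_zero_iff φ φ.toRingHom.injective])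

/-- **`n • D = div f ⟹ n • (ψ_* φ^* D) = div (N_ψ (φ f))`.** -/
theorem correspondence_nsmul_isDivOf (hfin : FiniteAlong K ψ) (hN : NormFormulaAlong K ψ hfin)
    {f : F} (hf : f ≠ 0) {D : Divisor K F} {n : ℕ} (hD : IsDivOf (n • D) f) :
    IsDivOf (n • Divisor.correspondence φ ψ hφ hψ D) (normAlong ψ (φ f)) := by
  rw [← map_nsmul]
  exact correspondence_isDivOf φ ψ hφ hψ hfin hN hf hD

/-- the integer-multiple version. -/
theorem correspondence_zsmul_isDivOf (hfin : FiniteAlong K ψ) (hN : NormFormulaAlong K ψ hfin)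
    {f : F} (hf : f ≠ 0) {D : Divisor K F} {n : ℤ} (hD : IsDivOf (n • D) f) :
    IsDivOf (n • Divisor.correspondence φ ψ hφ hψ D) (normAlong ψ (φ f)) := by
  rw [← map_zsmul]
  exact correspondence_isDivOf φ ψ hφ hψ hfin hN hf hD

/-- **Class-level form**: `T (cls D) = cls (T D)` and `n • D = div f ⟹ n • (T D) = div (N f)`. -/
theorem pic0_correspondence_mk_nsmul (hFI : FundamentalIdentityAlong K φ hφ)
    (hfin : FiniteAlong K ψ) (hN : NormFormulaAlong K ψ hfin)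
    (D : Divisor.degZero (K := K) (F := F)) {f : F} (hf : f ≠ 0) {n : ℕ}
    (hD : IsDivOf (n • (D : Divisor K F)) f) :
    Pic0.correspondence φ ψ hφ hψ hFI hfin hN (Pic0.mk D) =
        Pic0.mk (Pic0.degZeroCorrespondence φ ψ hφ hψ hFI D) ∧
      IsDivOf (n • (Pic0.degZeroCorrespondence φ ψ hφ hψ hFI D : Divisor K F))
        (normAlong ψ (φ f)) :=
  ⟨rfl, correspondence_nsmul_isDivOf φ ψ hφ hψ hfin hN hf hD⟩

end Generic

/-! ### the degeneracy maps at an arbitrary prime, over `ℚ̄` -/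

section Inputs

variable (N ℓ : ℕ) [NeZero N] [NeZero ℓ]

theorem finiteAlong_alpha_all (hℓ : ℓ.Prime) : FiniteAlong Qb (heckeAlphaBar Qb N ℓ) := by
  by_cases h : ℓ ∣ N
  · exact finiteAlong_alpha_of_dvd Qb N ℓ hℓ h
  · exact AlongDegree25.finiteAlong_alpha Qb N ℓ hℓ h

theorem finiteAlong_beta_all (hℓ : ℓ.Prime) : FiniteAlong Qb (heckeBetaBar Qb N ℓ) := by
  by_cases h : ℓ ∣ N
  · exact finiteAlong_beta_of_dvd Qb N ℓ hℓ h
  · exact AlongDegree25.finiteAlong_beta Qb N ℓ hℓ h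

theorem heckeAlphaBarIntegral_all (hℓ : ℓ.Prime) : HeckeAlphaBarIntegral Qb N ℓ :=
  AlongDegree25.isIntegral_of_finiteAlong _ (finiteAlong_alpha_all N ℓ hℓ)

theorem heckeBetaBarIntegral_all (hℓ : ℓ.Prime) : HeckeBetaBarIntegral Qb N ℓ :=
  AlongDegree25.isIntegral_of_finiteAlong _ (finiteAlong_beta_all N ℓ hℓ)

theorem normFormulaAlong_alpha_all (hℓ : ℓ.Prime) :
    NormFormulaAlong Qb (heckeAlphaBar Qb N ℓ) (finiteAlong_alpha_all N ℓ hℓ) :=
  NormFormula15.normFormulaAlong_of_isGen (heckeAlphaBar Qb N ℓ)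
    (finiteAlong_alpha_all N ℓ hℓ) (FbarFacts20.isGen_j (N * ℓ))

theorem normFormulaAlong_beta_all (hℓ : ℓ.Prime) :
    NormFormulaAlong Qb (heckeBetaBar Qb N ℓ) (finiteAlong_beta_all N ℓ hℓ) :=
  NormFormula15.normFormulaAlong_of_isGen (heckeBetaBar Qb N ℓ)
    (finiteAlong_beta_all N ℓ hℓ) (FbarFacts20.isGen_j (N * ℓ))

theorem fundamentalIdentityAlong_alpha_all (hℓ : ℓ.Prime) :
    haveI := hasPrincipalDivisors_level N ℓ
    FundamentalIdentityAlong Qb (heckeAlphaBar Qb N ℓ) (heckeAlphaBarIntegral_all N ℓ hℓ) := by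
  haveI := hasPrincipalDivisors_level N ℓ
  exact FundIdentity19.fundamentalIdentityAlong (heckeAlphaBar Qb N ℓ)
    (heckeAlphaBarIntegral_all N ℓ hℓ) (finiteAlong_alpha_all N ℓ hℓ)
    (FbarFacts20.isGen_j N) (FbarFacts20.isGen_j (N * ℓ))

theorem fundamentalIdentityAlong_beta_all (hℓ : ℓ.Prime) :
    haveI := hasPrincipalDivisors_level N ℓ
    FundamentalIdentityAlong Qb (heckeBetaBar Qb N ℓ) (heckeBetaBarIntegral_all N ℓ hℓ) := by
  haveI := hasPrincipalDivisors_level N ℓ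
  exact FundIdentity19.fundamentalIdentityAlong (heckeBetaBar Qb N ℓ)
    (heckeBetaBarIntegral_all N ℓ hℓ) (finiteAlong_beta_all N ℓ hℓ)
    (FbarFacts20.isGen_j N) (FbarFacts20.isGen_j (N * ℓ))

end Inputs

/-! ### (D1), (D2) -/

section Main

variable {N ℓ : ℕ} [NeZero N] [NeZero ℓ]
  [HasPrincipalDivisors Qb (laurentBaseChange Qb (modularFunctionFieldFull (N * ℓ)))]

local notation "FN" => laurentBaseChange Qb (modularFunctionFieldFull N)

/-- **(D1)** `α_* β^* (div f) = div (N_α (β f))`, every prime `ℓ`. -/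
theorem heckeDivBar_isDivOf (hℓ : ℓ.Prime) (hα : HeckeAlphaBarIntegral Qb N ℓ)
    (hβ : HeckeBetaBarIntegral Qb N ℓ) {f : FN} (hf : f ≠ 0) {D : Divisor Qb FN}
    (hD : IsDivOf D f) :
    IsDivOf (heckeDivBar hα hβ D) (normAlong (heckeAlphaBar Qb N ℓ) (heckeBetaBar Qb N ℓ f)) :=
  correspondence_isDivOf (heckeBetaBar Qb N ℓ) (heckeAlphaBar Qb N ℓ) hβ hα
    (finiteAlong_alpha_all N ℓ hℓ) (normFormulaAlong_alpha_all N ℓ hℓ) hf hD

/-- **(D1), transposed** `β_* α^* (div f) = div (N_β (α f))`, every prime `ℓ`. -/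
theorem heckeDivBarTranspose_isDivOf (hℓ : ℓ.Prime) (hα : HeckeAlphaBarIntegral Qb N ℓ)
    (hβ : HeckeBetaBarIntegral Qb N ℓ) {f : FN} (hf : f ≠ 0) {D : Divisor Qb FN}
    (hD : IsDivOf D f) :
    IsDivOf (heckeDivBarTranspose hα hβ D)
      (normAlong (heckeBetaBar Qb N ℓ) (heckeAlphaBar Qb N ℓ f)) :=
  correspondence_isDivOf (heckeAlphaBar Qb N ℓ) (heckeBetaBar Qb N ℓ) hα hβ
    (finiteAlong_beta_all N ℓ hℓ) (normFormulaAlong_beta_all N ℓ hℓ) hf hD

/-- **(D2)** `n • D = div f ⟹ n • (α_* β^* D) = div (N_α (β f))`. -/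
theorem heckeDivBar_nsmul_isDivOf (hℓ : ℓ.Prime) (hα : HeckeAlphaBarIntegral Qb N ℓ)
    (hβ : HeckeBetaBarIntegral Qb N ℓ) {f : FN} (hf : f ≠ 0) {D : Divisor Qb FN} {n : ℕ}
    (hD : IsDivOf (n • D) f) :
    IsDivOf (n • heckeDivBar hα hβ D)
      (normAlong (heckeAlphaBar Qb N ℓ) (heckeBetaBar Qb N ℓ f)) :=
  correspondence_nsmul_isDivOf (heckeBetaBar Qb N ℓ) (heckeAlphaBar Qb N ℓ) hβ hα
    (finiteAlong_alpha_all N ℓ hℓ) (normFormulaAlong_alpha_all N ℓ hℓ) hf hD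

/-- **(D2), transposed** `n • D = div f ⟹ n • (β_* α^* D) = div (N_β (α f))`. -/
theorem heckeDivBarTranspose_nsmul_isDivOf (hℓ : ℓ.Prime) (hα : HeckeAlphaBarIntegral Qb N ℓ)
    (hβ : HeckeBetaBarIntegral Qb N ℓ) {f : FN} (hf : f ≠ 0) {D : Divisor Qb FN} {n : ℕ}
    (hD : IsDivOf (n • D) f) :
    IsDivOf (n • heckeDivBarTranspose hα hβ D)
      (normAlong (heckeBetaBar Qb N ℓ) (heckeAlphaBar Qb N ℓ f)) :=
  correspondence_nsmul_isDivOf (heckeAlphaBar Qb N ℓ) (heckeBetaBar Qb N ℓ) hα hβ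
    (finiteAlong_beta_all N ℓ hℓ) (normFormulaAlong_beta_all N ℓ hℓ) hf hD

/-- the norms are nonzero. -/
theorem normAlong_alpha_beta_ne_zero (hℓ : ℓ.Prime) {f : FN} (hf : f ≠ 0) :
    normAlong (heckeAlphaBar Qb N ℓ) (heckeBetaBar Qb N ℓ f) ≠ 0 :=
  normAlong_map_ne_zero _ _ (finiteAlong_alpha_all N ℓ hℓ) hf

theorem normAlong_beta_alpha_ne_zero (hℓ : ℓ.Prime) {f : FN} (hf : f ≠ 0) :
    normAlong (heckeBetaBar Qb N ℓ) (heckeAlphaBar Qb N ℓ f) ≠ 0 :=
  normAlong_map_ne_zero _ _ (finiteAlong_beta_all N ℓ hℓ) hf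

/-- **(D2) on classes**: for `P = cls D` with `n • D = div f`,
`T_ℓ P = cls (α_* β^* D)` and `n • (α_* β^* D) = div (N_α (β f))`. -/
theorem heckePic0Bar_mk_nsmul (hℓ : ℓ.Prime) (hα : HeckeAlphaBarIntegral Qb N ℓ)
    (hβ : HeckeBetaBarIntegral Qb N ℓ)
    (hFI : FundamentalIdentityAlong Qb (heckeBetaBar Qb N ℓ) hβ)
    (hfin : FiniteAlong Qb (heckeAlphaBar Qb N ℓ))
    (hN : NormFormulaAlong Qb (heckeAlphaBar Qb N ℓ) hfin)
    (D : Divisor.degZero (K := Qb) (F := FN)) {f : FN} (hf : f ≠ 0) {n : ℕ}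
    (hD : IsDivOf (n • (D : Divisor Qb FN)) f) :
    heckePic0Bar hα hβ hFI hfin hN (Pic0.mk D) =
        Pic0.mk (Pic0.degZeroCorrespondence (heckeBetaBar Qb N ℓ) (heckeAlphaBar Qb N ℓ)
          hβ hα hFI D) ∧
      IsDivOf (n • (Pic0.degZeroCorrespondence (heckeBetaBar Qb N ℓ) (heckeAlphaBar Qb N ℓ)
          hβ hα hFI D : Divisor Qb FN))
        (normAlong (heckeAlphaBar Qb N ℓ) (heckeBetaBar Qb N ℓ f)) :=
  ⟨rfl, heckeDivBar_nsmul_isDivOf hℓ hα hβ hf hD⟩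

/-- **(D2) on classes, transposed**: for `P = cls D` with `n • D = div f`,
`U P = cls (β_* α^* D)` and `n • (β_* α^* D) = div (N_β (α f))`. -/
theorem heckePic0BarTranspose_mk_nsmul (hℓ : ℓ.Prime) (hα : HeckeAlphaBarIntegral Qb N ℓ)
    (hβ : HeckeBetaBarIntegral Qb N ℓ)
    (hFI : FundamentalIdentityAlong Qb (heckeAlphaBar Qb N ℓ) hα)
    (hfin : FiniteAlong Qb (heckeBetaBar Qb N ℓ))
    (hN : NormFormulaAlong Qb (heckeBetaBar Qb N ℓ) hfin)
    (D : Divisor.degZero (K := Qb) (F := FN)) {f : FN} (hf : f ≠ 0) {n : ℕ}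
    (hD : IsDivOf (n • (D : Divisor Qb FN)) f) :
    heckePic0BarTranspose hα hβ hFI hfin hN (Pic0.mk D) =
        Pic0.mk (Pic0.degZeroCorrespondence (heckeAlphaBar Qb N ℓ) (heckeBetaBar Qb N ℓ)
          hα hβ hFI D) ∧
      IsDivOf (n • (Pic0.degZeroCorrespondence (heckeAlphaBar Qb N ℓ) (heckeBetaBar Qb N ℓ)
          hα hβ hFI D : Divisor Qb FN))
        (normAlong (heckeBetaBar Qb N ℓ) (heckeAlphaBar Qb N ℓ f)) :=
  ⟨rfl, heckeDivBarTranspose_nsmul_isDivOf hℓ hα hβ hf hD⟩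

end Main

end Fermat.Agent.T1B.DivNorm27
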